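import Fermat.Agent.QuadraticHauptsatz.Subform

/-!
# The Hauptsatz of Arason and Pfister

A nonempty anisotropic form with class in `I ^ n` has rank at least `2 ^ n`: by induction on the
number of scaled Pfister classes, passing to fields in which one of them vanishes.
-/

set_option autoImplicit false

noncomputable section

open QuadraticMap

namespace Fermat.Agent.QuadraticHauptsatz

open Fermat.Agent.WittRat Fermat.Agent.MilnorKRat Fermat.Agent.MilnorConjectureRat

universe u

variable {F : Type u} [Field F]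

/-- Elements of `I ^ n` are sums of scaled `n`-fold Pfister classes. -/
theorem exists_scaled_sum {n : ℕ} {z : W F} (hz : z ∈ fundamentalPower F n) :
    ∃ L : List (Fˣ × List Fˣ), (∀ p ∈ L, p.2.length = n) ∧
      z = (L.map fun p => scale p.1 (pfisterClass p.2)).sum := by
  induction hz using AddSubgroup.closure_induction with
  | mem x hx =>
    obtain ⟨v, rfl⟩ := hx
    exact ⟨[(1, List.ofFn v)], by simp, by simp [MilnorKRat.scale_one]⟩
  | zero => exact ⟨[], by simp, by simp⟩
  | add x y _ _ hx hy =>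
    obtain ⟨L, hL, rfl⟩ := hx
    obtain ⟨M, hM, rfl⟩ := hy
    exact ⟨L ++ M, List.forall_mem_append.2 ⟨hL, hM⟩, by rw [List.map_append, List.sum_append]⟩
  | neg x _ hx =>
    obtain ⟨L, hL, rfl⟩ := hx
    refine ⟨L.map fun p => (-p.1, p.2), ?_, ?_⟩
    · simp only [List.mem_map, forall_exists_index, and_imp]
      rintro _ p hp rfl
      exact hL p hp
    · rw [List.map_map, List.sum_neg, List.map_map]
      exact congrArg List.sum (List.map_congr_left fun p _ => by simp [scale_neg])

/-- An anisotropic form hyperbolic over the function field of a form `b`, `b 0 = 1`, has at least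
the rank of `b`. -/
theorem card_le_of_hyperbolic (h2 : (2 : F) ≠ 0) {M : ℕ} {b : Fin M → Fˣ} (hM : 0 < M)
    (hb0 : b ⟨0, hM⟩ = 1) (hb : Aniso b) {m : ℕ} {w : Fin m → Fˣ} (hm : m ≠ 0) (hw : Aniso w)
    (hyp : ∀ (K : Type u) [Field K] (f : F →+* K),
      ¬ Aniso (fun i => mapUnits f (b i)) → mapW f (cls w) = 0) : M ≤ m := by
  obtain ⟨N, rfl⟩ : ∃ N, M = N + 1 := ⟨M - 1, by omega⟩
  obtain ⟨k, rfl⟩ : ∃ k, m = k + 1 := ⟨m - 1, by omega⟩
  obtain ⟨j, c, hj, -⟩ := exists_multiple_of_hyperbolic h2 hb0 hb hw hyp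
  omega

theorem mapW_id (z : W F) : mapW (RingHom.id F) z = z :=
  DFunLike.congr_fun (WittRat.hom_ext (f := mapW (RingHom.id F)) (g := AddMonoidHom.id _)
    fun a => by rw [mapW_wittClass]; rfl) z

theorem two_pow_le_of_sum {n : ℕ} : ∀ (r : ℕ) {F : Type u} [Field F], (2 : F) ≠ 0 →
    ∀ (L : List (Fˣ × List Fˣ)), L.length = r → (∀ p ∈ L, p.2.length = n) →
      ∀ {m : ℕ} {w : Fin m → Fˣ}, Aniso w →
        cls w = (L.map fun p => scale p.1 (pfisterClass p.2)).sum → m ≠ 0 → 2 ^ n ≤ m
  | 0, F, _, h2, L, hr, _, m, w, hw, hcl, hm => by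
    rw [List.length_eq_zero_iff.1 hr] at hcl
    exact absurd (eq_zero_of_cls_eq_zero h2 hw (by simpa using hcl)) hm
  | r + 1, F, _, h2, L, hr, hL, m, w, hw, hcl, hm => by
    obtain ⟨⟨a, l⟩, L', rfl⟩ := List.exists_cons_of_length_eq_add_one hr
    simp only [List.length_cons, Nat.succ.injEq] at hr
    simp only [List.forall_mem_cons] at hL
    by_cases hex : ∃ (K : Type u) (_ : Field K) (f : F →+* K),
        ¬ Aniso (fun i => mapUnits f (pfb l i)) ∧ mapW f (cls w) ≠ 0
    · obtain ⟨K, _, f, hiso, hne⟩ := hex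
      have hK : (2 : K) ≠ 0 := by
        rw [← map_ofNat f 2]
        exact (_root_.map_ne_zero f).2 h2
      obtain ⟨k, v, hk, hv, hv'⟩ := exists_aniso hK m fun i => mapUnits f (w i)
      rw [← mapW_cls] at hv'
      refine le_trans (two_pow_le_of_sum r hK
        (L'.map fun p => (mapUnits f p.1, p.2.map (mapUnits f))) (by simp [hr]) ?_ hv ?_ ?_) hk
      · simp only [List.mem_map, forall_exists_index, and_imp]
        rintro _ p hp rfl
        simpa using hL.2 p hp
      · rw [hv', hcl, List.map_cons, List.sum_cons, map_add, mapW_scale,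
          mapW_pfisterClass_eq_zero f l hiso, map_zero, zero_add, map_list_sum, List.map_map,
          List.map_map]
        exact congrArg List.sum (List.map_congr_left fun p _ => by
          simp [mapW_scale, mapW_pfisterClass])
      · rintro rfl
        exact hne (by rw [← hv']; simp [cls])
    · push Not at hex
      have hb : Aniso (pfb l) := by
        by_contra h
        refine hm (eq_zero_of_cls_eq_zero h2 hw ?_)
        rw [← mapW_id (cls w)]
        exact hex F inferInstance (RingHom.id F) h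
      rw [← hL.1]
      exact card_le_of_hyperbolic h2 (Nat.two_pow_pos _) (pfb_zero l _) hb hm hw
        fun K inst f h => hex K inst f h

/-- **The Hauptsatz of Arason and Pfister.** -/
theorem hauptsatz (h2 : (2 : F) ≠ 0) {n m : ℕ} {w : Fin m → Fˣ} (hw : Aniso w)
    (hI : cls w ∈ fundamentalPower F n) (hm : m ≠ 0) : 2 ^ n ≤ m := by
  obtain ⟨L, hL, hcl⟩ := exists_scaled_sum hI
  exact two_pow_le_of_sum L.length h2 L rfl hL hw hcl hm

/-- Every class is the class of a diagonal form. -/
theorem exists_cls (z : W F) : ∃ (m : ℕ) (w : Fin m → Fˣ), cls w = z := by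
  have hz := (closure_range_wittClass (F := F)).ge (AddSubgroup.mem_top z)
  induction hz using AddSubgroup.closure_induction with
  | mem x hx =>
    obtain ⟨a, rfl⟩ := hx
    exact ⟨1, fun _ => a, by simp [cls]⟩
  | zero => exact ⟨0, Fin.elim0, by simp [cls]⟩
  | add x y _ _ hx hy =>
    obtain ⟨k, v, rfl⟩ := hx
    obtain ⟨l, u, rfl⟩ := hy
    exact ⟨k + l, Fin.append v u, cls_append v u⟩
  | neg x _ hx =>
    obtain ⟨k, v, rfl⟩ := hx
    exact ⟨k, fun i => -v i, by simp [cls, WittMap.apply_neg]⟩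

/-- A form of rank below `2 ^ n` with class in `I ^ n` has class `0`. -/
theorem cls_eq_zero_of_lt (h2 : (2 : F) ≠ 0) {n m : ℕ} {w : Fin m → Fˣ}
    (hI : cls w ∈ fundamentalPower F n) (hlt : m < 2 ^ n) : cls w = 0 := by
  obtain ⟨k, v, hk, hv, hv'⟩ := exists_aniso h2 m w
  rw [← hv'] at hI ⊢
  rcases eq_or_ne k 0 with rfl | hk0
  · simp [cls]
  · have := hauptsatz h2 hv hI hk0
    omega

/-- **Krull's intersection theorem**: the powers of the fundamental ideal meet in `0`. -/
theorem eq_zero_of_forall_mem (h2 : (2 : F) ≠ 0) {z : W F}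
    (hz : ∀ n, z ∈ fundamentalPower F n) : z = 0 := by
  obtain ⟨m, w, rfl⟩ := exists_cls z
  exact cls_eq_zero_of_lt h2 (hz m) Nat.lt_two_pow_self

/-- Forms of rank `m`, `2 m < 2 ^ n`, congruent modulo `I ^ n` are isometric. -/
theorem equivalent_of_sub_mem (h2 : (2 : F) ≠ 0) {n m : ℕ} {w v : Fin m → Fˣ}
    (hI : cls w - cls v ∈ fundamentalPower F n) (hlt : 2 * m < 2 ^ n) :
    Equivalent (diag w) (diag v) := by
  refine (equivalent_iff_cls h2 w v).2 (sub_eq_zero.1 ?_)
  have e : cls (Fin.append w fun i => -v i) = cls w - cls v := by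
    rw [cls_append, sub_eq_add_neg]
    simp [cls, WittMap.apply_neg]
  rw [← e] at hI ⊢
  exact cls_eq_zero_of_lt h2 hI (by omega)

end Fermat.Agent.QuadraticHauptsatz
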