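import Fermat.Agent.MilnorConjectureRat.Degree
import Fermat.Agent.Pfister.CasselsPfister

/-!
# Anisotropic forms in the Witt group

Every class is that of an anisotropic form of no larger rank, only the empty anisotropic form has
class `0`, and base change is a homomorphism of Witt groups.
-/

set_option autoImplicit false

noncomputable section

open QuadraticMap

namespace Fermat.Agent.QuadraticHauptsatz

open Fermat.Agent.WittRat Fermat.Agent.MilnorKRat Fermat.Agent.MilnorConjectureRat

variable {F : Type*} [Field F] {K : Type*} [Field K]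

/-- A diagonal form of units has no zero but `0`. -/
abbrev Aniso {ι : Type*} [Fintype ι] (w : ι → Fˣ) : Prop :=
  FA.Pfister.Anisotropic fun i => (w i : F)

theorem diag_eq_sum {n : ℕ} (w : Fin n → Fˣ) (x : Fin n → F) :
    diag w x = ∑ i, (w i : F) * x i ^ 2 := by
  simp [weightedSumSquares_apply, _root_.sq]

/-- The map on units of a homomorphism of fields. -/
abbrev mapUnits (f : F →+* K) : Fˣ →* Kˣ := Units.map f.toMonoidHom

theorem coe_mapUnits (f : F →+* K) (a : Fˣ) : ((mapUnits f a : Kˣ) : K) = f a := rfl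

theorem mapUnits_neg (f : F →+* K) (a : Fˣ) : mapUnits f (-a) = -mapUnits f a :=
  Units.ext (map_neg f (a : F))

/-- Base change of classes. -/
def mapW (f : F →+* K) : W F →+ W K :=
  lift
    { toFun := fun a => wittClass K (mapUnits f a)
      mul_sq := fun a b => by rw [map_mul, map_pow, (wittClass K).mul_sq]
      add_neg := fun a => by rw [mapUnits_neg, (wittClass K).add_neg]
      binary := fun a b c h => by
        rw [map_mul, map_mul]
        exact (wittClass K).binary _ _ _ (by
          rw [coe_mapUnits, coe_mapUnits, coe_mapUnits, ← map_add, h]) }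

theorem mapW_wittClass (f : F →+* K) (a : Fˣ) :
    mapW f (wittClass F a) = wittClass K (mapUnits f a) := lift_wittClass _ a

theorem mapW_cls (f : F →+* K) {n : ℕ} (w : Fin n → Fˣ) :
    mapW f (cls w) = cls fun i => mapUnits f (w i) := by
  simp only [cls, map_sum, mapW_wittClass]

theorem mapW_scale (f : F →+* K) (c : Fˣ) (z : W F) :
    mapW f (scale c z) = scale (mapUnits f c) (mapW f z) :=
  DFunLike.congr_fun (WittRat.hom_ext (f := (mapW f).comp (scale c))
    (g := (scale (mapUnits f c)).comp (mapW f)) fun a => by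
      simp only [AddMonoidHom.comp_apply, scale_wittClass, mapW_wittClass, map_mul]) z

theorem mapW_comp {L : Type*} [Field L] (g : K →+* L) (f : F →+* K) (z : W F) :
    mapW g (mapW f z) = mapW (g.comp f) z :=
  DFunLike.congr_fun (WittRat.hom_ext (f := (mapW g).comp (mapW f)) (g := mapW (g.comp f))
    fun a => by
      simp only [AddMonoidHom.comp_apply, mapW_wittClass]
      rfl) z

theorem mapW_pfisterClass (f : F →+* K) :
    ∀ l : List Fˣ, mapW f (pfisterClass l) = pfisterClass (l.map (mapUnits f))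
  | [] => by rw [List.map_nil, pfisterClass, pfisterClass, mapW_wittClass, map_one]
  | a :: l => by
    rw [List.map_cons, pfisterClass, pfisterClass, map_add, mapW_scale, mapW_pfisterClass f l]

theorem scale_cls (c : Fˣ) {n : ℕ} (w : Fin n → Fˣ) :
    scale c (cls w) = cls fun i => c * w i := by
  simp only [cls, map_sum, scale_wittClass]

theorem parity_cls {n : ℕ} (w : Fin n → Fˣ) : parity (cls w) = (n : ZMod 2) := by
  simp [cls, map_sum, parity_wittClass]

/-! ### Isotropic forms -/

theorem aniso_of_equivalent {n m : ℕ} {w : Fin n → Fˣ} {v : Fin m → Fˣ}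
    (h : Equivalent (diag w) (diag v)) (hw : Aniso w) : Aniso v := by
  obtain ⟨e⟩ := h
  intro y hy
  have h1 := e.symm.map_app y
  rw [diag_eq_sum, diag_eq_sum] at h1
  have h2 : e.symm y = 0 := hw _ (h1.trans hy)
  exact e.symm.toLinearEquiv.map_eq_zero_iff.1 h2

theorem aniso_of_cons {n : ℕ} {b : Fˣ} {c : Fin n → Fˣ} (h : Aniso (Fin.cons b c : _ → Fˣ)) :
    Aniso c := by
  intro y hy
  have h1 := h (Fin.cons 0 y) (by simpa [Fin.sum_univ_succ] using hy)
  exact funext fun i => by simpa using congrFun h1 i.succ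

/-- An isotropic form takes every value. -/
theorem exists_diag_eq (h2 : (2 : F) ≠ 0) {n : ℕ} {w : Fin n → Fˣ} (hw : ¬ Aniso w) (b : F) :
    ∃ x, diag w x = b := by
  classical
  simp only [Aniso, FA.Pfister.Anisotropic, not_forall] at hw
  obtain ⟨x, hx, hx0⟩ := hw
  obtain ⟨j, hj⟩ := Function.ne_iff.1 hx0
  have hd : (2 : F) * w j * x j ≠ 0 := mul_ne_zero (mul_ne_zero h2 (w j).ne_zero) hj
  set t := (b - w j) / (2 * w j * x j)
  refine ⟨fun i => t * x i + if i = j then 1 else 0, ?_⟩
  rw [diag_eq_sum]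
  have e : ∀ i, (w i : F) * (t * x i + if i = j then 1 else 0) ^ 2 =
      t ^ 2 * ((w i : F) * x i ^ 2) + if i = j then 2 * (w i : F) * x i * t + w i else 0 := by
    intro i
    split_ifs <;> ring
  rw [Finset.sum_congr rfl fun i _ => e i, Finset.sum_add_distrib, ← Finset.mul_sum, hx,
    Finset.sum_ite_eq', if_pos (Finset.mem_univ j), mul_zero, zero_add]
  have ht : t * (2 * w j * x j) = b - w j := div_mul_cancel₀ _ hd
  linear_combination ht

/-- Split off a represented unit. -/
theorem exists_split_of_eq {n : ℕ} {w : Fin n → Fˣ} {b : Fˣ} {x : Fin n → F}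
    (hx : diag w x = b) : ∃ (k : ℕ) (c : Fin k → Fˣ), k + 1 = n ∧
      Equivalent (diag w) (diag (Fin.cons b c)) ∧ cls w = wittClass F b + cls c := by
  cases n with
  | zero =>
    rw [diag_eq_sum, Fin.sum_univ_zero] at hx
    exact absurd hx.symm b.ne_zero
  | succ k =>
    obtain ⟨c, h1, h2⟩ := exists_split w b x hx
    exact ⟨k, c, rfl, h1, by rw [h2, cls_cons]⟩

/-- An isotropic form loses a hyperbolic plane. -/
theorem exists_shorter (h2 : (2 : F) ≠ 0) {n : ℕ} {w : Fin n → Fˣ} (hw : ¬ Aniso w) :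
    ∃ (k : ℕ) (v : Fin k → Fˣ), k + 2 = n ∧ cls v = cls w := by
  obtain ⟨x, hx⟩ := exists_diag_eq h2 hw 1
  obtain ⟨k, c, hk, hc, hcl⟩ := exists_split_of_eq (b := 1) (by simpa using hx)
  have hex : ∃ y, diag c y = ((-1 : Fˣ) : F) := by
    by_cases ha : Aniso c
    swap
    · exact exists_diag_eq h2 ha _
    have hw' : ¬ Aniso (Fin.cons (1 : Fˣ) c : _ → Fˣ) := fun h =>
      hw (aniso_of_equivalent hc.symm h)
    simp only [Aniso, FA.Pfister.Anisotropic, not_forall] at hw'
    obtain ⟨z, hz, hz0⟩ := hw'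
    simp only [Fin.sum_univ_succ, Fin.cons_zero, Fin.cons_succ, Units.val_one, one_mul] at hz
    have hz1 : z 0 ≠ 0 := fun e => hz0 (by
      rw [e] at hz
      funext i
      cases i using Fin.cases with
      | zero => exact e
      | succ i => exact congrFun (ha _ (by simpa using hz)) i)
    refine ⟨fun i => z i.succ / z 0, ?_⟩
    rw [diag_eq_sum, Units.val_neg, Units.val_one]
    simp only [div_pow, mul_div, ← Finset.sum_div]
    rw [div_eq_iff (pow_ne_zero 2 hz1)]
    linear_combination hz
  obtain ⟨y, hy⟩ := hex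
  obtain ⟨j, v, hj, -, hv⟩ := exists_split_of_eq hy
  exact ⟨j, v, by omega, by rw [hcl, hv, ← add_assoc, (wittClass F).add_neg, zero_add]⟩

/-- **The anisotropic part.** -/
theorem exists_aniso (h2 : (2 : F) ≠ 0) : ∀ (n : ℕ) (w : Fin n → Fˣ),
    ∃ (k : ℕ) (v : Fin k → Fˣ), k ≤ n ∧ Aniso v ∧ cls v = cls w := by
  intro n
  induction n using Nat.strong_induction_on with
  | _ n ih =>
    intro w
    by_cases hw : Aniso w
    · exact ⟨n, w, le_rfl, hw, rfl⟩
    obtain ⟨k, v, hk, hv⟩ := exists_shorter h2 hw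
    obtain ⟨j, u, hj, hu, hu'⟩ := ih k (by omega) v
    exact ⟨j, u, by omega, hu, hu'.trans hv⟩

/-- **An anisotropic form of class `0` is empty.** -/
theorem eq_zero_of_cls_eq_zero (h2 : (2 : F) ≠ 0) {n : ℕ} {w : Fin n → Fˣ} (hw : Aniso w)
    (h : cls w = 0) : n = 0 := by
  have hp := parity_cls w
  rw [h, map_zero, eq_comm, ZMod.natCast_eq_zero_iff] at hp
  obtain ⟨k, rfl⟩ : ∃ k, n = k + k := by
    obtain ⟨k, rfl⟩ := hp
    exact ⟨k, by ring⟩
  set v : Fin (k + k) → Fˣ := Fin.append (fun _ => 1) fun _ => -1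
  have hv : cls v = 0 := by
    rw [cls_append, cls, cls, ← Finset.sum_add_distrib]
    exact Finset.sum_eq_zero fun _ _ => (wittClass F).add_neg 1
  have hva : Aniso v := aniso_of_equivalent ((equivalent_iff_cls h2 w v).2 (h.trans hv.symm)) hw
  by_contra hk
  have h1 := hva (Fin.append (fun _ => 1) fun _ => 1) (by
    simp only [v, Fin.sum_univ_add, Fin.append_left, Fin.append_right]
    simp)
  have h3 := congrFun h1 ⟨0, by omega⟩
  rw [show (⟨0, by omega⟩ : Fin (k + k)) = Fin.castAdd k ⟨0, by omega⟩ from rfl,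
    Fin.append_left] at h3
  exact one_ne_zero h3

/-! ### Pfister forms -/

/-- The coefficients of the Pfister form of a list. -/
def pfb : ∀ l : List Fˣ, Fin (2 ^ l.length) → Fˣ
  | [] => fun _ => 1
  | a :: l => fun i => Fin.append (pfb l) (fun j => a * pfb l j)
      (Fin.cast (show 2 ^ (a :: l).length = 2 ^ l.length + 2 ^ l.length by
        rw [List.length_cons, pow_succ, mul_two]) i)

theorem sum_pfb {A : Type*} [AddCommMonoid A] (a : Fˣ) (l : List Fˣ)
    (g : Fin (2 ^ (a :: l).length) → Fˣ → A) :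
    ∑ i, g i (pfb (a :: l) i) =
      (∑ i, g (Fin.cast (by rw [List.length_cons, pow_succ, mul_two])
          (Fin.castAdd (2 ^ l.length) i))
        (pfb l i)) +
      ∑ i, g (Fin.cast (by rw [List.length_cons, pow_succ, mul_two]) (Fin.natAdd (2 ^ l.length) i))
        (a * pfb l i) := by
  rw [← Fintype.sum_equiv (finCongr (show 2 ^ l.length + 2 ^ l.length = 2 ^ (a :: l).length by
    rw [List.length_cons, pow_succ, mul_two])) _ _ fun i => rfl, Fin.sum_univ_add]
  refine congrArg₂ (· + ·) (Finset.sum_congr rfl fun i _ => ?_)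
    (Finset.sum_congr rfl fun i _ => ?_) <;> refine congrArg (g _) ?_
  · exact Fin.append_left (pfb l) (fun j => a * pfb l j) i
  · exact Fin.append_right (pfb l) (fun j => a * pfb l j) i

theorem pfisterClass_eq_cls : ∀ l : List Fˣ, pfisterClass l = cls (pfb l)
  | [] => by simp [pfisterClass, cls, pfb]
  | a :: l => by
    rw [pfisterClass, pfisterClass_eq_cls l, scale_cls]
    exact (sum_pfb a l fun _ c => wittClass F c).symm

theorem pfb_zero : ∀ (l : List Fˣ) (h : 0 < 2 ^ l.length), pfb l ⟨0, h⟩ = 1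
  | [], _ => rfl
  | a :: l, h => by
    rw [pfb]
    exact (Fin.append_left _ _ ⟨0, Nat.two_pow_pos _⟩).trans (pfb_zero l _)

theorem isValue_pfb (f : F →+* K) : ∀ (l : List Fˣ) (x : Fin (2 ^ l.length) → K),
    IsValue (l.map (mapUnits f)) (∑ i, f (pfb l i) * x i ^ 2)
  | [], x => by
    refine ⟨x ⟨0, one_pos⟩, ?_⟩
    rw [Fintype.sum_eq_single (⟨0, one_pos⟩ : Fin (2 ^ ([] : List Fˣ).length)) fun i hi =>
      absurd (Fin.ext (Nat.lt_one_iff.1 i.2)) hi]
    simp [pfb]
  | a :: l, x => by
    rw [List.map_cons]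
    refine ⟨_, _,
      isValue_pfb f l fun i => x (Fin.cast (by rw [List.length_cons, pow_succ, mul_two])
        (Fin.castAdd (2 ^ l.length) i)),
      isValue_pfb f l fun i => x (Fin.cast (by rw [List.length_cons, pow_succ, mul_two])
        (Fin.natAdd (2 ^ l.length) i)), ?_⟩
    rw [sum_pfb a l fun i c => f c * x i ^ 2]
    simp [Finset.mul_sum, mul_assoc]

/-- **An isotropic Pfister form has class `0`**, in any extension. -/
theorem mapW_pfisterClass_eq_zero (f : F →+* K) : ∀ (l : List Fˣ),
    ¬ Aniso (fun i => mapUnits f (pfb l i)) → mapW f (pfisterClass l) = 0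
  | [], h => absurd (fun x hx => funext fun i => by
      rw [Fintype.sum_eq_single i fun j hj =>
        absurd (Fin.ext ((Nat.lt_one_iff.1 j.2).trans (Nat.lt_one_iff.1 i.2).symm)) hj] at hx
      simpa [pfb] using hx) h
  | a :: l, h => by
    by_cases hl : Aniso fun i => mapUnits f (pfb l i)
    swap
    · rw [pfisterClass, map_add, mapW_scale, mapW_pfisterClass_eq_zero f l hl, map_zero, add_zero]
    simp only [Aniso, FA.Pfister.Anisotropic, not_forall, coe_mapUnits] at h
    obtain ⟨x, hx, hx0⟩ := h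
    have h' := sum_pfb a l fun i c => f c * x i ^ 2
    rw [hx] at h'
    simp only [Units.val_mul, map_mul, mul_assoc, ← Finset.mul_sum] at h'
    rw [mapW_pfisterClass, List.map_cons]
    refine pfisterClass_cons_eq_zero _
      (isValue_pfb f l fun i => x (Fin.cast (by rw [List.length_cons, pow_succ, mul_two])
        (Fin.castAdd (2 ^ l.length) i)))
      (isValue_pfb f l fun i => x (Fin.cast (by rw [List.length_cons, pow_succ, mul_two])
        (Fin.natAdd (2 ^ l.length) i)))
      (by rw [coe_mapUnits]; exact h'.symm) fun hs => hx0 ?_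
    rw [hs, zero_add, eq_comm, mul_eq_zero] at h'
    have h1 := hl _ hs
    have h3 := hl _ (h'.resolve_left ((map_ne_zero f).2 a.ne_zero))
    funext i
    obtain ⟨j, rfl⟩ : ∃ j : Fin (2 ^ l.length + 2 ^ l.length), Fin.cast (by
        rw [List.length_cons, pow_succ, mul_two]) j = i :=
      ⟨Fin.cast (by rw [List.length_cons, pow_succ, mul_two]) i, Fin.ext rfl⟩
    refine Fin.addCases (fun k => ?_) (fun k => ?_) j
    · exact congrFun h1 k
    · exact congrFun h3 k

end Fermat.Agent.QuadraticHauptsatz
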