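import Fermat.Agent.QuadraticHauptsatz.Basic
import Mathlib.RingTheory.MvPolynomial.Basic
import Mathlib.RingTheory.Localization.FractionRing

/-!
# Rational function fields

Anisotropic forms stay anisotropic over `F(X₁, …, X_N)`, and there they represent no constant they
do not represent over `F`.
-/

set_option autoImplicit false

noncomputable section

namespace Fermat.Agent.QuadraticHauptsatz

universe u

open Polynomial

variable {F : Type u} [Field F] {ι : Type*} [Fintype ι]

theorem anisotropic_of_hom {K : Type*} [Field K] (f : F →+* K) {a : ι → F}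
    (h : FA.Pfister.Anisotropic fun i => f (a i)) : FA.Pfister.Anisotropic a := by
  intro x hx
  have h1 := h (fun i => f (x i)) (by simpa [map_sum] using congrArg f hx)
  exact funext fun i => f.injective ((congrFun h1 i).trans (map_zero f).symm)

/-- Anisotropy survives a transcendental. -/
theorem anisotropic_ratFunc {a : ι → F} (ha : FA.Pfister.Anisotropic a) :
    FA.Pfister.Anisotropic fun i => RatFunc.C (a i) := by
  classical
  intro x hx
  obtain ⟨b, hb⟩ := IsLocalization.exist_integer_multiples_of_finite (nonZeroDivisors F[X]) x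
  choose v hv using hb
  simp only [Algebra.smul_def] at hv
  have hsum : ∑ i, C (a i) * v i ^ 2 = 0 := by
    refine IsFractionRing.injective F[X] (RatFunc F) ?_
    rw [map_sum, map_zero]
    simp only [map_mul, map_pow, hv, RatFunc.algebraMap_C, mul_pow,
      mul_left_comm (RatFunc.C _), ← Finset.mul_sum]
    rw [show ∑ i, RatFunc.C (a i) * x i ^ 2 = 0 from hx, mul_zero]
  have hv0 : v = 0 := by_contra fun h => (ha.natDegree_eq h).1 hsum
  refine funext fun i => ?_
  have h1 := hv i
  rw [hv0, Pi.zero_apply, map_zero, eq_comm, mul_eq_zero] at h1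
  exact h1.resolve_left
    ((map_ne_zero_iff _ (IsFractionRing.injective F[X] (RatFunc F))).2
      (nonZeroDivisors.coe_ne_zero b))

/-- No new constants are represented after a transcendental. -/
theorem exists_eq_of_ratFunc (h2 : (2 : F) ≠ 0) {a : ι → F} (ha : ∀ i, a i ≠ 0) {c : F}
    {x : ι → RatFunc F} (h : ∑ i, RatFunc.C (a i) * x i ^ 2 = RatFunc.C c) :
    ∃ y : ι → F, ∑ i, a i * y i ^ 2 = c := by
  obtain ⟨v, hv⟩ := FA.Pfister.cassels_pfister h2 ha (f := C c)
    (h.trans (RatFunc.algebraMap_C c).symm)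
  exact ⟨fun i => (v i).eval 0, by simpa [eval_finsetSum] using congrArg (eval 0) hv⟩

/-! ### Several variables -/

/-- The field `F(X₁, …, X_N)`. -/
abbrev Gen (F : Type u) [Field F] (N : ℕ) : Type u := FractionRing (MvPolynomial (Fin N) F)

/-- The constants. -/
def Gen.of (N : ℕ) : F →+* Gen F N :=
  (algebraMap (MvPolynomial (Fin N) F) (Gen F N)).comp MvPolynomial.C

/-- The variables. -/
def Gen.var {N : ℕ} (i : Fin N) : Gen F N :=
  algebraMap (MvPolynomial (Fin N) F) (Gen F N) (MvPolynomial.X i)

/-- Polynomials in `N + 1` variables as rational functions of the first over the others. -/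
def Gen.polyToRat (N : ℕ) : MvPolynomial (Fin (N + 1)) F →+* RatFunc (Gen F N) :=
  (algebraMap (Gen F N)[X] (RatFunc (Gen F N))).comp
    ((Polynomial.mapRingHom (algebraMap (MvPolynomial (Fin N) F) (Gen F N))).comp
      (MvPolynomial.finSuccEquiv F N).toRingEquiv.toRingHom)

theorem Gen.polyToRat_injective (N : ℕ) : Function.Injective (Gen.polyToRat (F := F) N) :=
  (IsFractionRing.injective (Gen F N)[X] (RatFunc (Gen F N))).comp
    ((Polynomial.map_injective _ (IsFractionRing.injective _ (Gen F N))).comp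
      (MvPolynomial.finSuccEquiv F N).injective)

/-- `F(X₀, …, X_N) → F(X₁, …, X_N)(X₀)`. -/
def Gen.toRat (N : ℕ) : Gen F (N + 1) →+* RatFunc (Gen F N) :=
  IsFractionRing.lift (Gen.polyToRat_injective N)

theorem Gen.toRat_of (N : ℕ) (a : F) :
    Gen.toRat N (Gen.of (N + 1) a) = RatFunc.C (Gen.of N a) := by
  simp [Gen.toRat, Gen.of, Gen.polyToRat, IsFractionRing.lift_algebraMap,
    MvPolynomial.finSuccEquiv_apply, RatFunc.algebraMap_C]

theorem Gen.toRat_var_zero (N : ℕ) :
    Gen.toRat (F := F) N (Gen.var 0) = RatFunc.X := by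
  simp [Gen.toRat, Gen.var, Gen.polyToRat, IsFractionRing.lift_algebraMap,
    MvPolynomial.finSuccEquiv_X_zero, RatFunc.algebraMap_X]

theorem Gen.toRat_var_succ (N : ℕ) (i : Fin N) :
    Gen.toRat (F := F) N (Gen.var i.succ) = RatFunc.C (Gen.var (F := F) i) := by
  simp [Gen.toRat, Gen.var, Gen.polyToRat, IsFractionRing.lift_algebraMap,
    MvPolynomial.finSuccEquiv_X_succ, RatFunc.algebraMap_C]

/-- `F()` is `F`. -/
def Gen.toBase : Gen F 0 →+* F :=
  IsFractionRing.lift (g := (MvPolynomial.isEmptyAlgEquiv F (Fin 0)).toRingEquiv.toRingHom)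
    (MvPolynomial.isEmptyAlgEquiv F (Fin 0)).injective

theorem Gen.toBase_of (a : F) : Gen.toBase (Gen.of 0 a) = a := by
  have h : MvPolynomial.isEmptyAlgEquiv F (Fin 0) (MvPolynomial.C a) = a :=
    (MvPolynomial.isEmptyAlgEquiv F (Fin 0)).commutes a
  simpa [Gen.toBase, Gen.of, IsFractionRing.lift_algebraMap] using h

theorem Gen.two_ne_zero (h2 : (2 : F) ≠ 0) (N : ℕ) : (2 : Gen F N) ≠ 0 := by
  rw [← map_ofNat (Gen.of (F := F) N) 2]
  exact (_root_.map_ne_zero _).2 h2

/-- Anisotropy survives any number of variables. -/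
theorem anisotropic_gen {a : ι → F} (ha : FA.Pfister.Anisotropic a) :
    ∀ N, FA.Pfister.Anisotropic fun i => Gen.of N (a i)
  | 0 => anisotropic_of_hom Gen.toBase (by simpa [Gen.toBase_of] using ha)
  | N + 1 => anisotropic_of_hom (Gen.toRat N)
    (by simpa [Gen.toRat_of] using anisotropic_ratFunc (anisotropic_gen ha N))

/-- No new constants are represented in any number of variables. -/
theorem exists_eq_of_gen (h2 : (2 : F) ≠ 0) {a : ι → F} (ha : ∀ i, a i ≠ 0) {c : F} :
    ∀ {N : ℕ} {x : ι → Gen F N}, ∑ i, Gen.of N (a i) * x i ^ 2 = Gen.of N c →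
      ∃ y : ι → F, ∑ i, a i * y i ^ 2 = c
  | 0, x, h => ⟨fun i => Gen.toBase (x i), by
      simpa [map_sum, Gen.toBase_of] using congrArg Gen.toBase h⟩
  | N + 1, x, h => by
    obtain ⟨y, hy⟩ := exists_eq_of_ratFunc (Gen.two_ne_zero h2 N)
      (a := fun i => Gen.of N (a i)) (fun i => (_root_.map_ne_zero _).2 (ha i))
      (x := fun i => Gen.toRat N (x i))
      (by simpa [map_sum, Gen.toRat_of] using congrArg (Gen.toRat N) h)
    exact exists_eq_of_gen h2 ha hy

end Fermat.Agent.QuadraticHauptsatz
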