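import Fermat.Agent.QuadraticHauptsatz.Hauptsatz
import Mathlib.FieldTheory.IsAlgClosed.AlgebraicClosure
import Mathlib.Order.Zorn
import Mathlib.Algebra.Ring.Semireal.Defs

/-!
# The local-global principle of Pfister

A class that is no `2`-power torsion stays one in a maximal algebraic extension; that extension is
euclidean, and its ordering gives a signature that does not vanish.
-/

set_option autoImplicit false

noncomputable section

namespace Fermat.Agent.QuadraticHauptsatz

open Fermat.Agent.WittRat Fermat.Agent.MilnorKRat Fermat.Agent.MilnorConjectureRat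

universe u

variable {F : Type u} [Field F] {K : Type u} [Field K]

/-- An ordering of a field, by the signs of the units. -/
structure FieldSign (F : Type u) [Field F] where
  /-- The sign. -/
  sign : Fˣ →* ℤˣ
  sign_neg_one : sign (-1) = -1
  sign_add : ∀ a b c : Fˣ, (a : F) + b = c → sign a = sign b → sign c = sign a

theorem FieldSign.sign_neg (σ : FieldSign F) (a : Fˣ) : σ.sign (-a) = -σ.sign a := by
  rw [← neg_one_mul a, map_mul, σ.sign_neg_one, neg_one_mul]

/-- The signature of an ordering. -/
def signatureAt (σ : FieldSign F) : W F →+ ℤ :=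
  lift
    { toFun := fun a => (σ.sign a : ℤ)
      mul_sq := fun a b => by
        rw [map_mul, map_pow, Int.units_sq, mul_one]
      add_neg := fun a => by rw [σ.sign_neg, Units.val_neg, add_neg_cancel]
      binary := fun a b c h => by
        rw [map_mul, map_mul, Units.val_mul, Units.val_mul]
        rcases Int.units_eq_one_or (σ.sign a) with ha | ha <;>
          rcases Int.units_eq_one_or (σ.sign b) with hb | hb
        · rw [σ.sign_add a b c h (ha.trans hb.symm), ha, hb]; simp
        · rw [ha, hb]; simp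
        · rw [ha, hb]; simp
        · rw [σ.sign_add a b c h (ha.trans hb.symm), ha, hb]; simp }

theorem signatureAt_wittClass (σ : FieldSign F) (a : Fˣ) :
    signatureAt σ (wittClass F a) = (σ.sign a : ℤ) := lift_wittClass _ a

/-- The ordering below. -/
def FieldSign.comap (σ : FieldSign K) (f : F →+* K) : FieldSign F where
  sign := σ.sign.comp (mapUnits f)
  sign_neg_one := by
    rw [MonoidHom.comp_apply, mapUnits_neg, map_one, σ.sign_neg_one]
  sign_add a b c h hab := σ.sign_add _ _ _ (by
    rw [coe_mapUnits, coe_mapUnits, coe_mapUnits, ← map_add, h]) hab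

theorem signatureAt_mapW (σ : FieldSign K) (f : F →+* K) (z : W F) :
    signatureAt σ (mapW f z) = signatureAt (σ.comap f) z :=
  DFunLike.congr_fun (WittRat.hom_ext (f := (signatureAt σ).comp (mapW f))
    (g := signatureAt (σ.comap f)) fun a => by
      rw [AddMonoidHom.comp_apply, mapW_wittClass, signatureAt_wittClass, signatureAt_wittClass]
      rfl) z

theorem signatureAt_eq_zero_of_nsmul (σ : FieldSign F) {z : W F} {n : ℕ} (hn : n ≠ 0)
    (h : n • z = 0) : signatureAt σ z = 0 := by
  have := congrArg (signatureAt σ) h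
  rw [map_nsmul, map_zero, nsmul_eq_mul] at this
  exact (mul_eq_zero.1 this).resolve_left (Nat.cast_ne_zero.2 hn)

theorem nsmul_eq_zero_of_one {n : ℕ} (h : n • wittClass F 1 = 0) (z : W F) : n • z = 0 :=
  DFunLike.congr_fun (WittRat.hom_ext (f := nsmulAddMonoidHom (α := W F) n) (g := 0) fun a => by
    have := congrArg (scale a) h
    simpa [map_nsmul] using this) z

theorem four_nsmul_eq_zero {x y : F} (h : x ^ 2 + y ^ 2 = -1) (z : W F) : (2 ^ 2) • z = 0 := by
  refine nsmul_eq_zero_of_one ?_ z
  have key : ∀ u : Fˣ, u ^ 2 = -1 → (2 ^ 2) • wittClass F 1 = 0 := fun u hu => by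
    have h1 := (wittClass F).sq u
    rw [hu, (wittClass F).apply_neg, neg_eq_iff_add_eq_zero, ← two_nsmul] at h1
    rw [pow_two, mul_nsmul, h1, nsmul_zero]
  rcases eq_or_ne x 0 with rfl | hx
  · have hy : y ≠ 0 := fun e => by simp [e] at h
    exact key (Units.mk0 y hy) (Units.ext (by simpa using h))
  rcases eq_or_ne y 0 with rfl | hy
  · exact key (Units.mk0 x hx) (Units.ext (by simpa using h))
  set X := Units.mk0 x hx
  set Y := Units.mk0 y hy
  have h1 := (wittClass F).binary (X ^ 2) (Y ^ 2) (-1) (by simpa [X, Y] using h)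
  rw [(wittClass F).sq, (wittClass F).sq,
    show X ^ 2 * Y ^ 2 * -1 = -1 * (X * Y) ^ 2 by rw [mul_pow, mul_comm (-1 : Fˣ)],
    (wittClass F).mul_sq, (wittClass F).apply_neg, ← two_nsmul, ← two_nsmul, smul_neg,
    eq_neg_iff_add_eq_zero, ← two_nsmul, ← mul_nsmul] at h1
  rwa [pow_two]

/-- In a field with every unit a square or minus one, a class of `2`-power torsion free kind has a
signature. -/
theorem exists_sign_of_euclidean {z : W K} (hz : ∀ k : ℕ, (2 ^ k) • z ≠ 0)
    (hsq : ∀ a : Kˣ, IsSquare a ∨ IsSquare (-a)) :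
    ∃ σ : FieldSign K, signatureAt σ z ≠ 0 := by
  classical
  have hno : ∀ x y : K, x ^ 2 + y ^ 2 ≠ -1 := fun x y h => hz 2 (four_nsmul_eq_zero h z)
  have hm1 : ¬ IsSquare (-1 : Kˣ) := by
    rintro ⟨s, hs⟩
    exact hno s 0 (by rw [← Units.val_one, ← Units.val_neg, hs]; simp [sq])
  have hneg : ∀ a : Kˣ, IsSquare a → ¬ IsSquare (-a) := fun a ha hna => hm1 (by
    have := hna.div ha
    rwa [neg_div, div_self'] at this)
  let s : Kˣ → ℤˣ := fun a => if IsSquare a then 1 else -1
  have hs1 : ∀ {a : Kˣ}, IsSquare a → s a = 1 := fun ha => if_pos ha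
  have hs2 : ∀ {a : Kˣ}, IsSquare (-a) → s a = -1 := fun {a} ha =>
    if_neg fun h => hneg a h ha
  have hs1' : ∀ {a : Kˣ}, s a = 1 → IsSquare a := fun {a} h => (hsq a).resolve_right fun ha => by
    rw [hs2 ha] at h
    exact absurd h (by decide)
  have hs2' : ∀ {a : Kˣ}, s a = -1 → IsSquare (-a) := fun {a} h => (hsq a).resolve_left fun ha => by
    rw [hs1 ha] at h
    exact absurd h (by decide)
  have hadd : ∀ a b c : Kˣ, (a : K) + b = c → IsSquare a → IsSquare b → IsSquare c := by
    rintro a b c h ⟨x, rfl⟩ ⟨y, rfl⟩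
    refine (hsq c).resolve_right fun ⟨t, ht⟩ => hno ((x : K) / t) ((y : K) / t) ?_
    have ht' : (c : K) = -((t : K) * t) := by
      rw [← Units.val_mul, ← ht, Units.val_neg, neg_neg]
    rw [div_pow, div_pow, ← add_div, div_eq_iff (pow_ne_zero 2 t.ne_zero)]
    simp only [Units.val_mul] at h
    linear_combination h + ht'
  let σ : FieldSign K :=
    { sign :=
        { toFun := s
          map_one' := hs1 (IsSquare.one)
          map_mul' := fun a b => by
            rcases hsq a with ha | ha <;> rcases hsq b with hb | hb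
            · rw [hs1 ha, hs1 hb, hs1 (ha.mul hb), one_mul]
            · rw [hs1 ha, hs2 hb, hs2 (a := a * b) (by rw [← mul_neg]; exact ha.mul hb), one_mul]
            · rw [hs2 ha, hs1 hb, hs2 (a := a * b) (by rw [← neg_mul]; exact ha.mul hb), mul_one]
            · rw [hs2 ha, hs2 hb, hs1 (a := a * b) (by rw [← neg_mul_neg]; exact ha.mul hb),
                neg_one_mul, neg_neg] }
      sign_neg_one := hs2 (by rw [neg_neg]; exact IsSquare.one)
      sign_add := fun a b c h hab => by
        show s c = s a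
        change s a = s b at hab
        rcases hsq a with ha | ha
        · rw [hs1 ha] at hab ⊢
          exact hs1 (hadd a b c h ha (hs1' hab.symm))
        · rw [hs2 ha] at hab ⊢
          exact hs2 (hadd (-a) (-b) (-c) (by
            rw [Units.val_neg, Units.val_neg, Units.val_neg, ← neg_add, h]) ha (hs2' hab.symm)) }
  refine ⟨σ, fun h0 => hz 0 ?_⟩
  have key : ∀ w : W K, w = signatureAt σ w • wittClass K 1 := fun w =>
    DFunLike.congr_fun (WittRat.hom_ext (f := AddMonoidHom.id (W K))
      (g := (zmultiplesHom (W K) (wittClass K 1)).comp (signatureAt σ)) fun a => by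
        rw [AddMonoidHom.id_apply, AddMonoidHom.comp_apply, zmultiplesHom_apply,
          signatureAt_wittClass]
        show wittClass K a = (s a : ℤ) • wittClass K 1
        rcases hsq a with ha | ha
        · obtain ⟨x, rfl⟩ := ha
          rw [hs1 ⟨x, rfl⟩, Units.val_one, one_smul, ← pow_two, (wittClass K).sq]
        · rw [hs2 ha]
          obtain ⟨x, hx⟩ := ha
          rw [Units.val_neg, Units.val_one, neg_one_smul, ← neg_eq_iff_eq_neg,
            ← (wittClass K).apply_neg, hx, ← pow_two, (wittClass K).sq]) w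
  rw [pow_zero, one_nsmul, key z, h0, zero_smul]

/-! ### A maximal extension -/

variable {A : Type u} [Field A] [Algebra F A]

/-- Inclusion of intermediate fields. -/
abbrev incl {E E' : IntermediateField F A} (h : E ≤ E') : E →+* E' :=
  (IntermediateField.inclusion h).toRingHom

open IntermediateField in
/-- A class that dies in the union of a chain dies in a member. -/
theorem exists_mapW_eq_zero {κ : Type u} [Nonempty κ] {G : κ → IntermediateField F A}
    (hG : Directed (· ≤ ·) G) (h2 : (2 : F) ≠ 0) : ∀ (m : ℕ) (i : κ) (w : Fin m → (G i)ˣ),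
      mapW (incl (le_iSup G i)) (cls w) = 0 →
        ∃ (j : κ) (h : G i ≤ G j), mapW (incl h) (cls w) = 0 := by
  classical
  intro m
  induction m using Nat.strong_induction_on with
  | _ m ih =>
    intro i w hw
    have hU : ∀ E : IntermediateField F A, (2 : E) ≠ 0 := fun E => by
      rw [← map_ofNat (algebraMap F E) 2]
      exact (_root_.map_ne_zero _).2 h2
    rcases Nat.eq_zero_or_pos m with rfl | hm
    · exact ⟨i, le_rfl, by simp [cls]⟩
    have hiso : ¬ Aniso fun k => mapUnits (incl (le_iSup G i)) (w k) := fun ha =>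
      hm.ne' (eq_zero_of_cls_eq_zero (hU _) ha (by rw [← mapW_cls, hw]))
    simp only [Aniso, FA.Pfister.Anisotropic, not_forall, coe_mapUnits] at hiso
    obtain ⟨x, hx, hx0⟩ := hiso
    have hmem : ∀ k, ∃ j, (x k : A) ∈ G j := fun k =>
      Set.mem_iUnion.1 (coe_iSup_of_directed hG ▸ (x k).2)
    choose J hJ using hmem
    obtain ⟨j, hj⟩ := hG.finset_le (insert i (Finset.univ.image J))
    have hij : G i ≤ G j := hj i (Finset.mem_insert_self _ _)
    set y : Fin m → G j := fun k =>
      ⟨x k, hj (J k) (Finset.mem_insert_of_mem (Finset.mem_image_of_mem J (Finset.mem_univ k)))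
        (hJ k)⟩
    have hiso' : ¬ Aniso fun k => mapUnits (incl hij) (w k) := fun ha => hx0 (by
      have hy : incl (le_iSup G j) (∑ k, (mapUnits (incl hij) (w k) : G j) * y k ^ 2) = 0 := by
        rw [map_sum]
        refine Eq.trans ?_ hx
        refine Finset.sum_congr rfl fun k _ => ?_
        rw [map_mul, map_pow, coe_mapUnits]
        rfl
      have h0 := ha y ((_root_.map_eq_zero _).1 hy)
      exact funext fun k => Subtype.ext (congrArg Subtype.val (congrFun h0 k) :))
    obtain ⟨k, v, hk, hv⟩ := exists_shorter (hU _) hiso'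
    obtain ⟨l, hjl, hl⟩ := ih k (by omega) j v (by
      rw [hv, ← mapW_cls, mapW_comp]
      exact hw)
    refine ⟨l, hij.trans hjl, ?_⟩
    rw [hv, ← mapW_cls, mapW_comp] at hl
    exact hl

open IntermediateField in
/-- **A class that is no `2`-power torsion has a nonzero signature.** -/
theorem exists_signature_ne_zero (h2 : (2 : F) ≠ 0) {z : W F} (hz : ∀ k : ℕ, (2 ^ k) • z ≠ 0) :
    ∃ σ : FieldSign F, signatureAt σ z ≠ 0 := by
  classical
  let A := AlgebraicClosure F
  let s : Set (IntermediateField F A) :=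
    {E | ∀ k : ℕ, (2 ^ k) • mapW (algebraMap F E) z ≠ 0}
  have hbot : (⊥ : IntermediateField F A) ∈ s := fun k h => hz k (by
    have h1 := congrArg (mapW (botEquiv F A).toAlgHom.toRingHom) h
    rw [map_nsmul, map_zero, mapW_comp,
      show (botEquiv F A).toAlgHom.toRingHom.comp (algebraMap F _) = RingHom.id F from
        RingHom.ext fun x => (botEquiv F A).commutes x, mapW_id] at h1
    exact h1)
  obtain ⟨E, hE⟩ := zorn_le₀ s fun c hc hch => by
    rcases c.eq_empty_or_nonempty with rfl | hne
    · exact ⟨⊥, hbot, fun _ h => h.elim⟩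
    have : Nonempty c := hne.to_subtype
    refine ⟨⨆ E : c, (E : IntermediateField F A), fun k hk => ?_,
      fun E hE => le_iSup (fun E : c => (E : IntermediateField F A)) ⟨E, hE⟩⟩
    obtain ⟨i⟩ := ‹Nonempty c›
    obtain ⟨m, w, hw⟩ := exists_cls ((2 ^ k) • mapW (algebraMap F (i : IntermediateField F A)) z)
    obtain ⟨j, hij, hj⟩ := exists_mapW_eq_zero (G := fun E : c => (E : IntermediateField F A))
      hch.directedOn.directed_val h2 m i w (by
        rw [hw, map_nsmul, mapW_comp]
        exact hk)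
    rw [hw, map_nsmul, mapW_comp] at hj
    exact hc j.2 k hj
  have hE2 : (2 : E) ≠ 0 := by
    rw [← map_ofNat (algebraMap F E) 2]
    exact (_root_.map_ne_zero _).2 h2
  set zE := mapW (algebraMap F E) z
  have hmax : ∀ a : Eˣ, ¬ IsSquare a → ∃ (k : ℕ) (y : W E), (2 ^ k) • zE = y + scale (-a) y := by
    intro a ha
    have hirr := irreducible_sq_sub (δ := (a : E)) fun s hs => ha
      ⟨Units.mk0 s fun e => a.ne_zero (by rw [← hs, e]; ring), Units.ext (by simp [← hs, sq])⟩
    have := Fact.mk hirr
    set p := Polynomial.X ^ 2 - Polynomial.C (a : E) with hp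
    obtain ⟨θ, hθ⟩ := IsAlgClosed.exists_pow_nat_eq (((a : E) : A)) two_pos
    set φ : AdjoinRoot p →ₐ[E] A := AdjoinRoot.liftAlgHom p (Algebra.ofId E A) θ (by
      simp [hp, hθ])
    let φF : AdjoinRoot p →ₐ[F] A := φ.restrictScalars F
    have hlt : E < φF.fieldRange := by
      refine lt_of_le_of_ne (fun x hx => ⟨AdjoinRoot.of p ⟨x, hx⟩, φ.commutes ⟨x, hx⟩⟩) fun e =>
        ha ?_
      have hθE : θ ∈ E := by
        rw [e]
        exact ⟨AdjoinRoot.root p, by simp [φF, φ]⟩
      have h0 : θ ≠ 0 := fun e0 => a.ne_zero (Subtype.ext (by rw [← hθ, e0]; simp))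
      exact ⟨Units.mk0 ⟨θ, hθE⟩ (fun e0 => h0 (congrArg Subtype.val e0)),
        Units.ext (Subtype.ext (by simp [← hθ, sq]))⟩
    obtain ⟨k, hk⟩ : ∃ k : ℕ, (2 ^ k) • mapW (algebraMap F φF.fieldRange) z = 0 := by
      by_contra! h
      exact hlt.not_ge (hE.2 h hlt.le)
    let e : AdjoinRoot p ≃ₐ[F] φF.fieldRange := AlgEquiv.ofInjectiveField φF
    have h0 := congrArg (mapW e.symm.toAlgHom.toRingHom) hk
    rw [map_nsmul, map_zero, mapW_comp,
      show e.symm.toAlgHom.toRingHom.comp (algebraMap F _) = algebraMap F (AdjoinRoot p) from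
        RingHom.ext fun x => e.symm.commutes x,
      show algebraMap F (AdjoinRoot p) = (AdjoinRoot.of p).comp (algebraMap F E) from
        IsScalarTower.algebraMap_eq F E (AdjoinRoot p), ← mapW_comp, ← map_nsmul] at h0
    obtain ⟨m, w, hw⟩ := exists_cls ((2 ^ k) • zE)
    rw [← hw] at h0
    obtain ⟨y, hy⟩ := exists_eq_add_scale_adjoinRoot hE2 a w h0
    exact ⟨k, y, hw.symm.trans hy⟩
  have hfix : ∀ (a : Eˣ) (y : W E), scale (-a) (y + scale (-a) y) = y + scale (-a) y :=
    fun a y => by
    rw [map_add, scale_scale, show -a * -a = 1 * a ^ 2 by rw [neg_mul_neg, one_mul, sq],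
      scale_mul_sq, MilnorKRat.scale_one, add_comm]
  have hsq : ∀ a : Eˣ, IsSquare a ∨ IsSquare (-a) := by
    intro a
    by_contra! h
    obtain ⟨k, y, hy⟩ := hmax a h.1
    obtain ⟨l, y', hy'⟩ := hmax (-a) h.2
    have h1 : scale (-a) ((2 ^ (k + l)) • zE) = (2 ^ (k + l)) • zE := by
      rw [pow_add, mul_nsmul, hy, map_nsmul, hfix]
    have h3 : scale a ((2 ^ (k + l)) • zE) = (2 ^ (k + l)) • zE := by
      have := hfix (-a) y'
      rw [neg_neg] at this
      rw [pow_add, mul_comm, mul_nsmul, hy', map_nsmul, neg_neg, this]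
    rw [scale_neg, h3, neg_eq_iff_add_eq_zero, ← two_nsmul, smul_smul, ← pow_succ'] at h1
    exact hE.1 _ h1
  obtain ⟨σ, hσ⟩ := exists_sign_of_euclidean hE.1 hsq
  exact ⟨σ.comap (algebraMap F E), by rwa [← signatureAt_mapW]⟩

/-- **Pfister's local-global principle.** -/
theorem torsion_iff (h2 : (2 : F) ≠ 0) (z : W F) :
    (∀ σ : FieldSign F, signatureAt σ z = 0) ↔ ∃ k : ℕ, (2 ^ k) • z = 0 := by
  refine ⟨fun h => ?_, fun ⟨k, hk⟩ σ => signatureAt_eq_zero_of_nsmul σ (pow_ne_zero k two_ne_zero)
    hk⟩
  by_contra! h'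
  obtain ⟨σ, hσ⟩ := exists_signature_ne_zero h2 h'
  exact hσ (h σ)

/-- Torsion in the Witt group is `2`-primary. -/
theorem torsion_two_primary (h2 : (2 : F) ≠ 0) {z : W F} {n : ℕ} (hn : n ≠ 0) (h : n • z = 0) :
    ∃ k : ℕ, (2 ^ k) • z = 0 :=
  (torsion_iff h2 z).1 fun σ => signatureAt_eq_zero_of_nsmul σ hn h

/-- **Artin–Schreier**: `-1` is a sum of squares exactly when there is no ordering. -/
theorem isEmpty_fieldSign_iff (h2 : (2 : F) ≠ 0) : IsEmpty (FieldSign F) ↔ IsSumSq (-1 : F) := by
  refine ⟨fun hE => ?_, fun hs => ⟨fun σ => ?_⟩⟩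
  · obtain ⟨k, hk⟩ := (torsion_iff h2 (wittClass F 1)).1 isEmptyElim
    obtain ⟨n, hn⟩ : ∃ n, 2 ^ k = n + 1 := ⟨2 ^ k - 1, by have := Nat.two_pow_pos k; omega⟩
    have hna : ¬ Aniso fun _ : Fin (n + 1) => (1 : Fˣ) := fun ha =>
      Nat.succ_ne_zero n (eq_zero_of_cls_eq_zero h2 ha (by rw [← hk, hn]; simp [cls]))
    simp only [Aniso, FA.Pfister.Anisotropic, not_forall, Units.val_one, one_mul] at hna
    obtain ⟨x, hx, hx0⟩ := hna
    obtain ⟨j, hj⟩ := Function.ne_iff.1 hx0
    classical
    have : ∑ i ∈ Finset.univ.erase j, (x i / x j) ^ 2 = (-1 : F) := by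
      simp only [div_pow]
      rw [← Finset.sum_div, div_eq_iff (pow_ne_zero 2 hj)]
      linear_combination (Finset.sum_erase_add _ _ (Finset.mem_univ j)).trans hx
    exact this ▸ IsSumSq.sum fun i _ => (sq (x i / x j)).symm ▸ IsSumSq.mul_self _
  · have key : ∀ s : F, IsSumSq s → ∀ hne : s ≠ 0, σ.sign (Units.mk0 s hne) = 1 := by
      intro s hs
      induction hs with
      | zero => exact fun hne => absurd rfl hne
      | sq_add a hS ih =>
        intro hne
        rcases eq_or_ne a 0 with rfl | ha
        · rename_i S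
          have hS0 : S ≠ 0 := by simpa using hne
          rw [← ih hS0]
          exact congrArg _ (Units.ext (by simp))
        rename_i S
        have hsq : σ.sign (Units.mk0 a ha * Units.mk0 a ha) = 1 := by
          rw [map_mul, Int.units_mul_self]
        rcases eq_or_ne S 0 with rfl | hS0
        · rw [← hsq]
          exact congrArg _ (Units.ext (by simp))
        rw [← hsq]
        exact σ.sign_add _ (Units.mk0 S hS0) _ (by simp) (hsq.trans (ih hS0).symm)
    have h1 := key _ hs (neg_ne_zero.2 one_ne_zero)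
    rw [show Units.mk0 (-1 : F) (neg_ne_zero.2 one_ne_zero) = -1 from Units.ext (by simp),
      σ.sign_neg_one] at h1
    exact absurd h1 (by decide)

/-- The signs of a linear order. -/
def FieldSign.ofOrder (L : Type u) [Field L] [LinearOrder L] [IsStrictOrderedRing L] :
    FieldSign L where
  sign :=
    { toFun := fun a => if 0 < (a : L) then 1 else -1
      map_one' := by simp
      map_mul' := fun a b => by
        rcases lt_or_gt_of_ne a.ne_zero with ha | ha <;>
          rcases lt_or_gt_of_ne b.ne_zero with hb | hb <;>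
          simp [ha, hb, ha.not_gt, hb.not_gt, mul_pos_iff] }
  sign_neg_one := by simp
  sign_add a b c h hab := by
    simp only [MonoidHom.coe_mk, OneHom.coe_mk] at hab ⊢
    rcases lt_or_gt_of_ne a.ne_zero with ha | ha <;>
      rcases lt_or_gt_of_ne b.ne_zero with hb | hb <;>
      simp [ha, hb, ha.not_gt, hb.not_gt, ← h, add_pos] at hab ⊢
    linarith

end Fermat.Agent.QuadraticHauptsatz
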