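import Fermat.Agent.QuadraticHauptsatz.Generic
import Mathlib.RingTheory.AdjoinRoot

/-!
# The subform theorem

An anisotropic form that vanishes in the Witt group of every extension in which `⟨1, b₁, …⟩` has a
zero contains a multiple of that form: a form of class `0` over `L(√δ)` is a multiple of `⟨1, -δ⟩`,
so the value at variables is a similarity factor, and Cassels–Pfister splits it off.
-/

set_option autoImplicit false

noncomputable section

open QuadraticMap

namespace Fermat.Agent.QuadraticHauptsatz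

open Fermat.Agent.WittRat Fermat.Agent.MilnorKRat

universe u

variable {F : Type u} [Field F]

/-- A vector orthogonal to a represented unit is a vector of the complement. -/
theorem exists_orth (h2 : (2 : F) ≠ 0) {n k : ℕ} {w : Fin n → Fˣ} {b : Fˣ} {c : Fin k → Fˣ}
    (he : Equivalent (diag w) (diag (Fin.cons b c))) {A B : Fin n → F} (hA : diag w A = b)
    (hAB : diag w (A + B) = b + diag w B) : ∃ y, diag c y = diag w B := by
  obtain ⟨e⟩ := he
  have e' : (diag w).IsometryEquiv (((b : F) • QuadraticMap.sq).prod (diag c)) :=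
    e.trans (FA.Pfister.consIsometry fun i => ((Fin.cons b c : Fin (k + 1) → Fˣ) i : F))
  obtain ⟨τ, hτ⟩ := FA.Pfister.exists_isometry_apply_eq h2 _ (w := e' A) (x := ((1 : F), 0))
    (by rw [e'.map_app, hA]; simp) (by simp)
  set h := e'.trans τ
  have hA' : h A = (1, 0) := hτ
  have h1 := h.map_app B
  have h3 := h.map_app (A + B)
  rw [show h (A + B) = h A + h B from map_add h.toLinearEquiv A B, hA', hAB, ← h1] at h3
  simp only [QuadraticMap.prod_apply, _root_.smul_apply, QuadraticMap.sq_apply, smul_eq_mul,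
    Prod.fst_add, Prod.snd_add, zero_add] at h3 h1
  have hs : (h B).1 = 0 :=
    (mul_eq_zero.1 (show (2 * (b : F)) * (h B).1 = 0 by linear_combination h3)).resolve_left
      (mul_ne_zero h2 b.ne_zero)
  exact ⟨(h B).2, by rw [hs] at h1; simpa using h1⟩

/-- **Splitting at a transcendental**: if over `L(T)` the form `w` represents `b T² + d`, then it
is `⟨b⟩` and a form representing `d` over `L`. -/
theorem exists_step (h2 : (2 : F) ≠ 0) {m N : ℕ} {w : Fin m → Fˣ} (hw : Aniso w) (b : Fˣ)
    {d : Gen F N} {x : Fin m → RatFunc (Gen F N)}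
    (hx : ∑ i, RatFunc.C (Gen.of (F := F) N (w i)) * x i ^ 2 =
      RatFunc.C (Gen.of (F := F) N b) * RatFunc.X ^ 2 + RatFunc.C d) :
    ∃ (k : ℕ) (c : Fin k → Fˣ), k + 1 = m ∧ cls w = wittClass F b + cls c ∧ Aniso c ∧
      ∃ y : Fin k → Gen F N, ∑ i, Gen.of (F := F) N (c i) * y i ^ 2 = d := by
  have h2' := Gen.two_ne_zero h2 N
  obtain ⟨v, hv⟩ := FA.Pfister.cassels_pfister h2'
    (a := fun i => Gen.of (F := F) N (w i : F)) (fun i => (_root_.map_ne_zero _).2 (w i).ne_zero)
    (f := Polynomial.C (Gen.of (F := F) N (b : F)) * Polynomial.X ^ 2 + Polynomial.C d) (x := x)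
    (by simpa [RatFunc.algebraMap_C, RatFunc.algebraMap_X] using hx)
  have hdeg : (Polynomial.C (Gen.of (F := F) N (b : F)) * Polynomial.X ^ 2 +
      Polynomial.C d).natDegree =
      2 := by
    rw [Polynomial.natDegree_add_C, Polynomial.natDegree_C_mul_X_pow]
    exact (_root_.map_ne_zero _).2 b.ne_zero
  have hv1 : ∀ i, (v i).natDegree ≤ 1 := by
    by_cases h : v = 0
    · simp [h]
    intro i
    have := ((anisotropic_gen hw N).natDegree_eq h).2 i
    rw [hv, hdeg] at this
    omega
  set A := fun i => (v i).coeff 1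
  set B := fun i => (v i).coeff 0
  have hA : ∑ i, Gen.of (F := F) N (w i) * A i ^ 2 = Gen.of (F := F) N b := by
    rw [← FA.Pfister.coeff_two_mul_sum (a := fun i => Gen.of (F := F) N (w i : F)) hv1, hv]
    simp
  have hB : ∑ i, Gen.of (F := F) N (w i) * B i ^ 2 = d := by
    simpa [Polynomial.eval_finsetSum, Polynomial.coeff_zero_eq_eval_zero, B] using
      congrArg (Polynomial.eval 0) hv
  have hAB : ∑ i, Gen.of (F := F) N (w i) * (A i + B i) ^ 2 = Gen.of (F := F) N b + d := by
    have h := congrArg (Polynomial.eval 1) hv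
    simp only [Polynomial.eval_finsetSum, Polynomial.eval_mul, Polynomial.eval_pow,
      Polynomial.eval_C, Polynomial.eval_add, Polynomial.eval_X, one_pow, mul_one] at h
    rw [← h]
    refine Finset.sum_congr rfl fun i _ => ?_
    conv_rhs => rw [Polynomial.eq_X_add_C_of_natDegree_le_one (hv1 i)]
    simp [A, B]
  obtain ⟨y₀, hy₀⟩ := exists_eq_of_gen h2 (fun i => (w i).ne_zero) hA
  obtain ⟨k, c, hk, he, hcl⟩ := exists_split_of_eq (w := w) (b := b) (x := y₀)
    (by rw [diag_eq_sum, hy₀])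
  refine ⟨k, c, hk, hcl, aniso_of_cons (aniso_of_equivalent he hw), ?_⟩
  subst hk
  have hg : cls (fun i => mapUnits (Gen.of N) (w i)) =
      cls (Fin.cons (mapUnits (Gen.of N) b) fun i => mapUnits (Gen.of N) (c i)) := by
    rw [← mapW_cls, hcl, map_add, mapW_wittClass, mapW_cls, cls_cons]
  obtain ⟨y, hy⟩ := exists_orth h2' ((equivalent_iff_cls h2' _ _).2 hg) (A := A) (B := B)
    (by rw [diag_eq_sum]; exact hA) (by
      rw [diag_eq_sum, diag_eq_sum]
      exact hAB.trans (congrArg _ hB.symm))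
  rw [diag_eq_sum, diag_eq_sum] at hy
  exact ⟨y, hy.trans hB⟩

/-- **The subform theorem**: a form representing the value of another at variables contains it. -/
theorem exists_subform (h2 : (2 : F) ≠ 0) : ∀ {N : ℕ} (b : Fin N → Fˣ) {m : ℕ} {w : Fin m → Fˣ},
    Aniso w → ∀ {x : Fin m → Gen F N},
      ∑ i, Gen.of (F := F) N (w i) * x i ^ 2 = ∑ i, Gen.of (F := F) N (b i) * Gen.var i ^ 2 →
        ∃ (j : ℕ) (c : Fin j → Fˣ), N + j = m ∧ cls w = cls b + cls c
  | 0, b, m, w, _, _, _ => ⟨m, w, zero_add m, by simp [cls]⟩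
  | N + 1, b, m, w, hw, x, hx => by
    obtain ⟨k, c, hk, hcl, hc, y, hy⟩ := exists_step h2 (N := N) hw (b 0)
      (d := ∑ i, Gen.of (F := F) N (Fin.tail b i) * Gen.var i ^ 2)
      (x := fun i => Gen.toRat N (x i)) (by
        simpa [map_sum, Fin.sum_univ_succ, Gen.toRat_of, Gen.toRat_var_zero,
          Gen.toRat_var_succ, Fin.tail] using congrArg (Gen.toRat N) hx)
    obtain ⟨j, c', hj, hc'⟩ := exists_subform h2 (Fin.tail b) hc hy
    refine ⟨j, c', by omega, ?_⟩
    rw [hcl, hc', ← add_assoc, ← cls_cons, Fin.cons_self_tail]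

/-! ### Quadratic extensions -/

open Polynomial in
theorem irreducible_sq_sub {L : Type u} [Field L] {δ : L} (hδ : ∀ s, s ^ 2 ≠ δ) :
    Irreducible (X ^ 2 - C δ) :=
  X_pow_sub_C_irreducible_of_prime Nat.prime_two hδ

/-- **The kernel of a quadratic extension**: a form of class `0` over `L(√δ)` has a class
`z - δ z`. -/
theorem exists_eq_add_scale {L : Type u} [Field L] (h2 : (2 : L) ≠ 0) (δ : Lˣ) {K : Type u}
    [Field K] (f : L →+* K) (θ : K) (hθ : θ ^ 2 = f δ)
    (hbasis : ∀ z, ∃ x y, z = f x + f y * θ)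
    (hindep : ∀ x y, f x + f y * θ = 0 → x = 0 ∧ y = 0) :
    ∀ (m : ℕ) (w : Fin m → Lˣ), mapW f (cls w) = 0 → ∃ z, cls w = z + scale (-δ) z := by
  intro m
  induction m using Nat.strong_induction_on with
  | _ m ih =>
    intro w h
    by_cases hw : Aniso w
    swap
    · obtain ⟨k, v, hk, hv⟩ := exists_shorter h2 hw
      obtain ⟨z, hz⟩ := ih k (by omega) v (by rw [hv, h])
      exact ⟨z, hv.symm.trans hz⟩
    rcases Nat.eq_zero_or_pos m with rfl | hm
    · exact ⟨0, by simp [cls]⟩
    have hK : (2 : K) ≠ 0 := by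
      rw [← map_ofNat f 2]
      exact (_root_.map_ne_zero f).2 h2
    have hnw : ¬ Aniso fun i => mapUnits f (w i) := fun ha =>
      hm.ne' (eq_zero_of_cls_eq_zero hK ha (by rw [← mapW_cls, h]))
    simp only [Aniso, FA.Pfister.Anisotropic, not_forall, coe_mapUnits] at hnw
    obtain ⟨Z, hZ, hZ0⟩ := hnw
    choose X Y hXY using fun i => hbasis (Z i)
    have e : ∀ i, f (w i : L) * Z i ^ 2 = f ((w i : L) * X i ^ 2 + δ * ((w i : L) * Y i ^ 2)) +
        f (2 * ((w i : L) * (X i * Y i))) * θ := fun i => by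
      rw [hXY i]
      simp only [map_add, map_mul, map_pow, map_ofNat, ← hθ]
      ring
    rw [Finset.sum_congr rfl fun i _ => e i, Finset.sum_add_distrib, ← Finset.sum_mul, ← map_sum,
      ← map_sum] at hZ
    obtain ⟨h0, h1⟩ := hindep _ _ hZ
    rw [Finset.sum_add_distrib, ← Finset.mul_sum] at h0
    rw [← Finset.mul_sum, mul_eq_zero, or_iff_right h2] at h1
    have hY : Y ≠ 0 := fun hY => hZ0 (by
      have hX : X = 0 := hw X (by simpa [hY] using h0)
      funext i
      rw [hXY i, hX, hY]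
      simp)
    set b := Units.mk0 (∑ i, (w i : L) * Y i ^ 2) (fun e => hY (hw Y e))
    obtain ⟨k, c, hk, he, hcl⟩ := exists_split_of_eq (w := w) (b := b) (x := Y)
      (by rw [diag_eq_sum]; rfl)
    obtain ⟨y, hy⟩ := exists_orth h2 he (A := Y) (B := X) (by rw [diag_eq_sum]; rfl) (by
      rw [diag_eq_sum, diag_eq_sum]
      have : ∀ i, (w i : L) * (Y + X) i ^ 2 = (w i : L) * Y i ^ 2 + (w i : L) * X i ^ 2 +
          2 * ((w i : L) * (X i * Y i)) := fun i => by rw [Pi.add_apply]; ring
      rw [Finset.sum_congr rfl fun i _ => this i, Finset.sum_add_distrib, Finset.sum_add_distrib,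
        ← Finset.mul_sum, h1, mul_zero, add_zero]
      rfl)
    obtain ⟨j, c', hj, -, hcl'⟩ := exists_split_of_eq (b := -δ * b) (x := y) (by
      rw [hy, diag_eq_sum, Units.val_mul, Units.val_neg]
      exact (eq_neg_of_add_eq_zero_left h0).trans (neg_mul _ _).symm)
    obtain ⟨z, hz⟩ := ih j (by omega) c' (by
      rw [hcl, hcl'] at h
      rw [map_add, map_add, mapW_wittClass, mapW_wittClass, map_mul, mapUnits_neg, neg_mul,
        ← add_assoc] at h
      rw [show mapUnits f δ * mapUnits f b = mapUnits f b * (Units.mk0 θ (fun e => δ.ne_zero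
          ((_root_.map_eq_zero f).1 (by rw [← hθ, e]; ring)))) ^ 2 from Units.ext (by
            simp [hθ, mul_comm]), ← neg_mul, (wittClass K).mul_sq, (wittClass K).add_neg,
        zero_add] at h
      exact h)
    refine ⟨wittClass L b + z, ?_⟩
    rw [hcl, hcl', hz, map_add, scale_wittClass]
    abel

open Polynomial in
theorem root_sq {L : Type u} [Field L] (δ : L) :
    AdjoinRoot.root (X ^ 2 - C δ) ^ 2 = AdjoinRoot.of (X ^ 2 - C δ) δ := by
  have := AdjoinRoot.eval₂_root (X ^ 2 - C δ)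
  rwa [eval₂_sub, eval₂_X_pow, eval₂_C, sub_eq_zero] at this

open Polynomial in
/-- The kernel of `L → L(√δ)`. -/
theorem exists_eq_add_scale_adjoinRoot {L : Type u} [Field L] (h2 : (2 : L) ≠ 0) (δ : Lˣ)
    [Fact (Irreducible (X ^ 2 - C (δ : L)))] {m : ℕ} (w : Fin m → Lˣ)
    (h : mapW (AdjoinRoot.of (X ^ 2 - C (δ : L))) (cls w) = 0) :
    ∃ z, cls w = z + scale (-δ) z := by
  set p := X ^ 2 - C (δ : L) with hp
  have hmon : p.Monic := monic_X_pow_sub_C _ two_ne_zero
  have hpdeg : p.natDegree = 2 := natDegree_X_pow_sub_C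
  have hmk : ∀ x y : L, AdjoinRoot.mk p (C y * X + C x) =
      AdjoinRoot.of p x + AdjoinRoot.of p y * AdjoinRoot.root p := fun x y => by
    rw [map_add, map_mul, AdjoinRoot.mk_C, AdjoinRoot.mk_C, AdjoinRoot.mk_X, add_comm]
  refine exists_eq_add_scale h2 δ _ _ (root_sq (δ : L)) (fun z => ?_) (fun x y h => ?_) _ _ h
  · obtain ⟨g, rfl⟩ := AdjoinRoot.mk_surjective z
    refine ⟨(g %ₘ p).coeff 0, (g %ₘ p).coeff 1, ?_⟩
    rw [← hmk, ← eq_X_add_C_of_natDegree_le_one (by
      have := natDegree_modByMonic_lt g hmon (fun e => by simp [e] at hpdeg)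
      omega), AdjoinRoot.mk_eq_mk, ← dvd_neg, neg_sub]
    exact ⟨-(g /ₘ p), by linear_combination modByMonic_add_div g p⟩
  · rw [← hmk, AdjoinRoot.mk_eq_zero] at h
    have h0 : C y * X + C x = 0 :=
      eq_zero_of_dvd_of_natDegree_lt h (by
        rw [hpdeg]
        exact lt_of_le_of_lt natDegree_linear_le one_lt_two)
    exact ⟨by simpa using congrArg (coeff · 0) h0, by simpa using congrArg (coeff · 1) h0⟩

/-- **Forms hyperbolic over a function field.** If an anisotropic `w` has class `0` in every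
extension where `b`, `b 0 = 1`, has a zero, then it is `w₀ b` and a further form. -/
theorem exists_multiple_of_hyperbolic (h2 : (2 : F) ≠ 0) {N : ℕ} {b : Fin (N + 1) → Fˣ}
    (hb0 : b 0 = 1) (hb : Aniso b) {m : ℕ} {w : Fin (m + 1) → Fˣ} (hw : Aniso w)
    (hyp : ∀ (K : Type u) [Field K] (f : F →+* K),
      ¬ Aniso (fun i => mapUnits f (b i)) → mapW f (cls w) = 0) :
    ∃ (j : ℕ) (c : Fin j → Fˣ), N + 1 + j = m + 1 ∧
      cls w = scale (w 0) (cls b) + cls c := by
  rcases Nat.eq_zero_or_pos N with rfl | hN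
  · refine ⟨m, Fin.tail w, by omega, ?_⟩
    conv_lhs => rw [← Fin.cons_self_tail w]
    simp [cls, Fin.sum_univ_succ, hb0, Fin.tail]
  set L := Gen F N
  set d : L := ∑ i : Fin N, Gen.of (F := F) N (b i.succ) * Gen.var i ^ 2
  have hd : ∀ s : L, s ^ 2 + d ≠ 0 := fun s h => by
    have h1 := anisotropic_gen hb N (Fin.cons s fun i => Gen.var i)
      (by simpa [Fin.sum_univ_succ, hb0, d] using h)
    have h3 := congrFun h1 (Fin.succ ⟨0, hN⟩)
    simp only [Fin.cons_succ, Pi.zero_apply, Gen.var] at h3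
    exact (map_ne_zero_iff _ (IsFractionRing.injective (MvPolynomial (Fin N) F) L)).2
      (MvPolynomial.X_ne_zero _) h3
  have hd0 : d ≠ 0 := fun e => hd 0 (by rw [e]; ring)
  set δ : Lˣ := -Units.mk0 d hd0 with hδdef
  have hirr := irreducible_sq_sub (δ := (δ : L)) fun s e => hd s (by
    rw [e, hδdef, Units.val_neg, Units.val_mk0, neg_add_cancel])
  have := Fact.mk hirr
  set p := Polynomial.X ^ 2 - Polynomial.C (δ : L) with hp
  set θ := AdjoinRoot.root p
  have hθ : θ ^ 2 = AdjoinRoot.of p δ := root_sq (δ : L)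
  have h2L : (2 : L) ≠ 0 := Gen.two_ne_zero h2 N
  have hzero : mapW (AdjoinRoot.of p) (cls fun i => mapUnits (Gen.of N) (w i)) = 0 := by
    rw [← mapW_cls, mapW_comp]
    refine hyp _ _ fun ha => ?_
    have h1 := ha (Fin.cons θ fun i => AdjoinRoot.of p (Gen.var i)) (by
      simp only [coe_mapUnits, RingHom.comp_apply, Fin.sum_univ_succ, Fin.cons_zero,
        Fin.cons_succ, hb0, Units.val_one, map_one, one_mul, hθ, ← map_pow, ← map_mul, ← map_sum]
      rw [← map_add, show (δ : L) + d = 0 by simp [hδdef], map_zero])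
    have h3 : θ = 0 := by simpa using congrFun h1 0
    rw [h3, zero_pow two_ne_zero, eq_comm, _root_.map_eq_zero] at hθ
    exact δ.ne_zero hθ
  obtain ⟨z, hz⟩ := exists_eq_add_scale_adjoinRoot h2L δ _ hzero
  rw [hδdef, neg_neg] at hz
  set g : L →+* RatFunc L := RatFunc.C
  set R := fun i => mapUnits g (mapUnits (Gen.of N) (w i))
  set D := mapUnits g (Units.mk0 d hd0)
  have hc0 : (RatFunc.X : RatFunc L) ^ 2 + g d ≠ 0 := by
    rw [← RatFunc.algebraMap_X, show g d = algebraMap (Polynomial L) _ (Polynomial.C d) from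
      (RatFunc.algebraMap_C d).symm, ← map_pow, ← map_add,
      map_ne_zero_iff _ (IsFractionRing.injective (Polynomial L) (RatFunc L))]
    exact Polynomial.X_pow_add_C_ne_zero (by norm_num) d
  set c : (RatFunc L)ˣ := Units.mk0 _ hc0
  have hsim : scale c (cls R) = cls R := by
    have hR : cls R = mapW g z + scale D (mapW g z) := by
      rw [← mapW_cls, hz, map_add, mapW_scale]
    set T := Units.mk0 (RatFunc.X : RatFunc L) RatFunc.X_ne_zero
    have hb' := scale_binary (a := T ^ 2) (b := D) (c := c)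
      (by simp [T, D, c]) (mapW g z)
    rw [← one_mul (T ^ 2), scale_mul_sq, MilnorKRat.scale_one,
      show 1 * T ^ 2 * D * c = c * D * T ^ 2 by ac_rfl, scale_mul_sq,
      ← scale_scale c D] at hb'
    rw [hR, map_add, ← hb']
  rw [scale_cls] at hsim
  have hR2 : (2 : RatFunc L) ≠ 0 := by
    rw [← map_ofNat g 2]
    exact (_root_.map_ne_zero g).2 h2L
  obtain ⟨e⟩ := (equivalent_iff_cls hR2 _ _).2 hsim
  classical
  have hval := e.map_app (Pi.single 0 1)
  rw [diag_eq_sum, diag_eq_sum, Finset.sum_eq_single (0 : Fin (m + 1)) (s := Finset.univ)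
      (f := fun i => ((c * R i : (RatFunc L)ˣ) : RatFunc L) * (Pi.single 0 1 : _ → RatFunc L) i ^ 2)
      (fun i _ hi => by rw [Pi.single_eq_of_ne hi]; simp)
      (fun h => absurd (Finset.mem_univ _) h)] at hval
  simp only [Pi.single_eq_same, one_pow, mul_one, Units.val_mul, c, Units.val_mk0, R, g,
    coe_mapUnits] at hval
  obtain ⟨k, c', hk, hcl, hc', y, hy⟩ := exists_step h2 (N := N) hw (w 0)
    (d := Gen.of (F := F) N (w 0) * d) (x := e (Pi.single 0 1)) (by
      refine hval.trans ?_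
      rw [map_mul]
      ring)
  obtain ⟨j, c'', hj, hc''⟩ := exists_subform h2 (fun i : Fin N => w 0 * b i.succ) hc' (x := y) (by
    rw [hy, Finset.mul_sum]
    exact Finset.sum_congr rfl fun i _ => by rw [Units.val_mul, map_mul, mul_assoc])
  refine ⟨j, c'', by omega, ?_⟩
  rw [hcl, hc'', ← add_assoc, scale_cls]
  congr 1
  simp only [cls, Fin.sum_univ_succ (n := N), hb0, mul_one]

end Fermat.Agent.QuadraticHauptsatz
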